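import Mathlib
import Fermat.Agent.S59.MFree.H587.KappaSystem
import Fermat.Agent.S41.H863.TransferNatural

/-!
# Row S59, block M-FREE without (Ell): the abstract transfer argument (helper779)

Setting of `MFree/H587/KappaSystem.lean`: a coset system `h : IsCosetSystem ι ι ρ` from `G` to `G`
(a Hecke correspondence `T`) whose cocycle preserves a character `κ : G →* D`, and `f : K →* G`
injective with range `ker κ`.  Let `i₀` be an index such that `K` acts transitively on the index
set, `S' → G` the stabiliser of `i₀` and `K' → S'` the kernel of `κ` on `S'`.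

`T` on `Hom(K, A)` factors as `cor^K_{K'} ∘ c^*`, where `c : K' → K` is the conjugation by `ρ i₀`
(`restrict_transfer_eq`), and `cor^{S'}_{K'} ∘ c^* = c^* ∘ cor^G_K` (`transferAlong_comp_cK`).
Hence, if the kernel of `cor^{S'}_{K'}` is the augmentation subgroup `I_D · Hom(K', A)`
(KerCor for the stabiliser), then **`T` maps the kernel of `cor^G_K` into `I_D · Hom(K, A)`**
(`transfer_mem_aug_of_transferAlong_eq_zero`).  No hypothesis on the kernel of `cor^G_K` itself.
-/

set_option autoImplicit false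

namespace Fermat.Agent.S59.MFree.H779

open Fermat.Agent.S41.H761 Fermat.Agent.S41.Spec Fermat.Agent.S59.MFree.H587
open Fermat.Agent.S41.H863 Fermat.Agent.S41.H581

/-! ## Lifting homomorphisms through an injective homomorphism -/

section Lift

variable {K G X : Type*} [Group K] [Group G] [Group X]

/-- The lift of `φ : X →* G` with values in the range of the injective `f : K →* G`. -/
noncomputable def liftHom (f : K →* G) (hf : Function.Injective f) (φ : X →* G)
    (hφ : ∀ x, φ x ∈ f.range) : X →* K :=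
  (MonoidHom.ofInjective hf).symm.toMonoidHom.comp (φ.codRestrict f.range hφ)

theorem f_liftHom (f : K →* G) (hf : Function.Injective f) (φ : X →* G)
    (hφ : ∀ x, φ x ∈ f.range) (x : X) : f (liftHom f hf φ hφ x) = φ x := by
  have h1 := (MonoidHom.ofInjective hf).apply_symm_apply (φ.codRestrict f.range hφ x)
  exact congrArg Subtype.val h1

theorem liftHom_injective (f : K →* G) (hf : Function.Injective f) (φ : X →* G)
    (hφ : ∀ x, φ x ∈ f.range) (hinj : Function.Injective φ) :
    Function.Injective (liftHom f hf φ hφ) := by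
  intro a b hab
  apply hinj
  rw [← f_liftHom f hf φ hφ a, ← f_liftHom f hf φ hφ b, hab]

end Lift

/-! ## Conjugation on the kernel -/

section Conj

variable {K G D : Type*} [Group K] [Group G] [Group D]
variable {κ : G →* D} (f : K →* G) (hf : Function.Injective f)
  (hr : ∀ g : G, g ∈ f.range ↔ κ g = 1)

include hr in
theorem conj_mem_range (g : G) (k : K) : g⁻¹ * f k * g ∈ f.range := by
  rw [hr, map_mul, map_mul, (hr _).1 ⟨k, rfl⟩, mul_one, map_inv, inv_mul_cancel]

/-- The conjugation `k ↦ g⁻¹ k g` on `K = ker κ`, for `g ∈ G`. -/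
noncomputable def conjHom (g : G) : K →* K :=
  liftHom f hf ((MulAut.conj g⁻¹).toMonoidHom.comp f) (fun k => by
    have := conj_mem_range f hr g k
    simpa [MulAut.conj_apply] using this)

theorem f_conjHom (g : G) (k : K) : f (conjHom f hf hr g k) = g⁻¹ * f k * g := by
  unfold conjHom
  rw [f_liftHom]
  simp

/-- The conjugation on `K` as an automorphism. -/
noncomputable def conjEquiv (g : G) : K ≃* K where
  toFun := conjHom f hf hr g
  invFun := conjHom f hf hr g⁻¹
  left_inv k := by
    apply hf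
    rw [f_conjHom, f_conjHom]
    group
  right_inv k := by
    apply hf
    rw [f_conjHom, f_conjHom]
    group
  map_mul' := map_mul _

theorem f_conjEquiv (g : G) (k : K) : f (conjEquiv f hf hr g k) = g⁻¹ * f k * g :=
  f_conjHom f hf hr g k

end Conj

/-! ## The augmentation subgroup -/

section Aug

variable {K G : Type*} [Group K] [Group G] (f : K →* G) (A : Type*) [AddCommGroup A]

/-- `I · Hom(K, A)`: the subgroup generated by the `y ∘ c_g - y`, where `c_g` is the conjugation
`k ↦ g⁻¹ k g` by an element `g` of `G`. -/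
def augOf : AddSubgroup (Additive K →+ A) :=
  AddSubgroup.closure {w | ∃ (g : G) (c : K →* K) (y : Additive K →+ A),
    (∀ k, f (c k) = g⁻¹ * f k * g) ∧ w = y.comp (MonoidHom.toAdditive c) - y}

end Aug

/-! ## The transfer as an additive map -/

section TransferHom

variable {H G : Type*} [Group H] [Group G] {A : Type*} [AddCommGroup A]

theorem transferAlong_zero (f : H →* G) : transferAlong f (0 : Additive H →+ A) = 0 := by
  have h := transferAlong_add f (0 : Additive H →+ A) 0
  rw [add_zero] at h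
  exact left_eq_add.mp h

theorem transferAlong_neg (f : H →* G) (ψ : Additive H →+ A) :
    transferAlong f (-ψ) = - transferAlong f ψ := by
  have h := transferAlong_add f ψ (-ψ)
  rw [add_neg_cancel, transferAlong_zero] at h
  exact eq_neg_of_add_eq_zero_right h.symm

theorem transferAlong_sub (f : H →* G) (ψ ψ' : Additive H →+ A) :
    transferAlong f (ψ - ψ') = transferAlong f ψ - transferAlong f ψ' := by
  rw [sub_eq_add_neg, transferAlong_add, transferAlong_neg, ← sub_eq_add_neg]

end TransferHom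

/-! ## The stabiliser of an index -/

section Main

variable {𝒢 G K D : Type*} [Group 𝒢] [Group G] [Group K] [Group D] {I : Type*}
variable {ι : G →* 𝒢} {ρ : I → 𝒢}
variable (h : IsCosetSystem ι ι ρ) {κ : G →* D} (hκ : PreservesKappa h κ)
variable (f : K →* G) (hf : Function.Injective f) (hr : ∀ g : G, g ∈ f.range ↔ κ g = 1)
variable (i₀ : I)
variable {S' K' : Type*} [Group S'] [Group K']
variable (jS : S' →* G) (hS : ∀ g : G, g ∈ jS.range ↔ h.act i₀ g = i₀)
variable (f' : K' →* S') (hK' : ∀ s : S', s ∈ f'.range ↔ κ (jS s) = 1)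

include hS in
theorem act_jS (s : S') : h.act i₀ (jS s) = i₀ := (hS _).1 ⟨s, rfl⟩

/-- The conjugation by `ρ i₀`, as a homomorphism from the stabiliser to `G`. -/
noncomputable def cS : S' →* G where
  toFun s := h.coc i₀ (jS s)
  map_one' := by rw [map_one, h.coc_one]
  map_mul' s t := by rw [map_mul, h.coc_mul, act_jS h i₀ jS hS s]

theorem cS_apply (s : S') : cS h i₀ jS hS s = h.coc i₀ (jS s) := rfl

include hκ in
theorem kappa_cS (s : S') : κ (cS h i₀ jS hS s) = κ (jS s) := hκ i₀ (jS s)

include hr hK' in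
theorem jS_f'_mem_range (k' : K') : (jS.comp f') k' ∈ f.range :=
  (hr _).2 ((hK' _).1 ⟨k', rfl⟩)

include hκ hr hK' in
theorem cS_f'_mem_range (k' : K') : ((cS h i₀ jS hS).comp f') k' ∈ f.range := by
  rw [hr, MonoidHom.comp_apply, kappa_cS h hκ i₀ jS hS]
  exact (hK' _).1 ⟨k', rfl⟩

/-- The inclusion `K' → K`. -/
noncomputable def uK : K' →* K :=
  liftHom f hf (jS.comp f') (jS_f'_mem_range f hr jS f' hK')

theorem f_uK (k' : K') : f (uK f hf hr jS f' hK' k') = jS (f' k') :=
  f_liftHom f hf _ _ k'

/-- The conjugation by `ρ i₀`, as a homomorphism `K' → K`. -/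
noncomputable def cK : K' →* K :=
  liftHom f hf ((cS h i₀ jS hS).comp f') (cS_f'_mem_range h hκ f hr i₀ jS hS f' hK')

theorem f_cK (k' : K') : f (cK h hκ f hf hr i₀ jS hS f' hK' k') = h.coc i₀ (jS (f' k')) :=
  f_liftHom f hf _ _ k'

variable (hjS : Function.Injective jS) (hf' : Function.Injective f')

include hjS hf' in
theorem uK_injective : Function.Injective (uK f hf hr jS f' hK') :=
  liftHom_injective f hf _ _ (hjS.comp hf')

include hS in
theorem mem_range_uK (k : K) : k ∈ (uK f hf hr jS f' hK').range ↔ h.act i₀ (f k) = i₀ := by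
  constructor
  · rintro ⟨k', rfl⟩
    rw [f_uK]
    exact act_jS h i₀ jS hS _
  · intro hk
    obtain ⟨s, hs⟩ := (hS _).2 hk
    have h1 : κ (jS s) = 1 := by
      rw [hs]
      exact (hr _).1 ⟨k, rfl⟩
    obtain ⟨k', hk'⟩ := (hK' _).2 h1
    refine ⟨k', hf ?_⟩
    rw [f_uK, hk', hs]

/-- `act i g⁻¹ = i₀` if `act i₀ g = i`. -/
theorem act_inv_of_act {i : I} {g : G} (hg : h.act i₀ g = i) : h.act i g⁻¹ = i₀ := by
  rw [← hg, ← h.act_mul, mul_inv_cancel, h.act_one]

/-- `coc i g⁻¹ = (coc i₀ g)⁻¹` if `act i₀ g = i`. -/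
theorem coc_inv_of_act {i : I} {g : G} (hg : h.act i₀ g = i) :
    h.coc i g⁻¹ = (h.coc i₀ g)⁻¹ := by
  have h1 := h.coc_mul i₀ g g⁻¹
  rw [mul_inv_cancel, h.coc_one, hg] at h1
  exact eq_inv_of_mul_eq_one_right h1.symm

variable {A : Type*} [AddCommGroup A]

/-! ### `T = cor^K_{K'} ∘ c^*` -/

include hjS hf' hS in
/-- **Factorisation of the Hecke operator**: `T x = cor^K_{K'} (x ∘ c)`. -/
theorem restrict_transfer_eq [Fintype I] (htr : ∀ i : I, ∃ k : K, h.act i₀ (f k) = i)
    (x : Additive K →+ A) :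
    (restrictSystem h hκ f hf hr).transfer x =
      transferAlong (uK f hf hr jS f' hK')
        (x.comp (MonoidHom.toAdditive (cK h hκ f hf hr i₀ jS hS f' hK'))) := by
  classical
  set hK := restrictSystem h hκ f hf hr with hhK
  set u := uK f hf hr jS f' hK' with hu
  set c := cK h hκ f hf hr i₀ jS hS f' hK' with hc
  choose s hs using htr
  -- the twist
  have hb : ∀ i : I, ∃ b : K, f b = h.coc i₀ (f (s i)) := by
    intro i
    have h1 : h.coc i₀ (f (s i)) ∈ f.range := (hr _).2 (by rw [hκ]; exact (hr _).1 ⟨s i, rfl⟩)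
    exact h1
  choose b hb using hb
  rw [← twistSystem_transfer hK b x]
  refine AddMonoidHom.ext fun k' => ?_
  obtain ⟨k, rfl⟩ : ∃ k : K, Additive.ofMul k = k' := ⟨Additive.toMul k', rfl⟩
  -- the data of `k`
  have hmem : ∀ i : I, s i * k * (s (h.act i (f k)))⁻¹ ∈ u.range := by
    intro i
    rw [hu, mem_range_uK h f hf hr i₀ jS hS f' hK']
    rw [map_mul, map_mul, map_inv, h.act_mul, h.act_mul, hs i]
    exact act_inv_of_act h i₀ (hs _)
  choose kk hkk using hmem
  have hkk' : ∀ i : I, s i * k = u (kk i) * s (h.act i (f k)) := by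
    intro i
    rw [hkk i, inv_mul_cancel_right]
  have hinj : ∀ a a' : I, s a * (s a')⁻¹ ∈ u.range → a = a' := by
    intro a a' haa
    rw [hu, mem_range_uK h f hf hr i₀ jS hS f' hK', map_mul, map_inv, h.act_mul, hs a] at haa
    have h2 : h.act (h.act a (f (s a'))⁻¹) (f (s a')) = h.act i₀ (f (s a')) := by rw [haa]
    rw [← h.act_mul, inv_mul_cancel, h.act_one, hs a'] at h2
    exact h2
  have hsurj : ∀ g : K, ∃ a : I, g * (s a)⁻¹ ∈ u.range := by
    intro g
    refine ⟨h.act i₀ (f g), ?_⟩
    rw [hu, mem_range_uK h f hf hr i₀ jS hS f' hK', map_mul, map_inv, h.act_mul]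
    exact act_inv_of_act h i₀ (hs _)
  rw [transferAlong_eq_sum_reps u (uK_injective f hf hr jS f' hK' hjS hf') s hinj hsurj _ k
    (fun i => h.act i (f k)) kk hkk', IsCosetSystem.transfer_apply]
  refine Finset.sum_congr rfl fun i _ => ?_
  show x (Additive.ofMul ((twistSystem hK b).coc i k)) = x (Additive.ofMul (c (kk i)))
  congr 2
  apply hf
  rw [twistSystem_coc hK b, map_mul, map_mul, map_inv, restrictSystem_coc h hκ f hf hr,
    restrictSystem_act h hκ f hf hr, hb, hb, hc, f_cK, ← f_uK f hf hr jS f' hK', ← hu, hkk i,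
    map_mul, map_mul, map_inv, h.coc_mul, h.coc_mul, h.act_mul, hs i,
    coc_inv_of_act h i₀ (hs (h.act i (f k)))]

/-! ### `cor^{S'}_{K'} ∘ c^* = c^* ∘ cor^G_K` -/

include hf' in
/-- The transfer from `K'` to the stabiliser is the restriction of the transfer from `K` to `G`,
through the conjugation by `ρ i₀`. -/
theorem transferAlong_comp_cK [Finite D] (htr : ∀ i : I, ∃ k : K, h.act i₀ (f k) = i)
    (x : Additive K →+ A) :
    transferAlong f' (x.comp (MonoidHom.toAdditive (cK h hκ f hf hr i₀ jS hS f' hK'))) =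
      (transferAlong f x).comp (MonoidHom.toAdditive (cS h i₀ jS hS)) := by
  classical
  set c := cK h hκ f hf hr i₀ jS hS f' hK' with hc
  -- `f'.range` has finite index
  have hker : f'.range = (κ.comp jS).ker := by
    ext s
    rw [hK', MonoidHom.mem_ker, MonoidHom.comp_apply]
  have : f'.range.FiniteIndex := by
    rw [hker]
    infer_instance
  have hft : Fintype (S' ⧸ f'.range) := f'.range.fintypeQuotientOfFiniteIndex
  obtain ⟨t, hinj, hsurj⟩ := exists_reps f'.range
  refine AddMonoidHom.ext fun s' => ?_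
  obtain ⟨s, rfl⟩ : ∃ s : S', Additive.ofMul s = s' := ⟨Additive.toMul s', rfl⟩
  choose σ hσ using fun j : S' ⧸ f'.range => hsurj (t j * s)
  choose kk hkk using hσ
  have hkk' : ∀ j, t j * s = f' (kk j) * t (σ j) := by
    intro j
    rw [hkk j, inv_mul_cancel_right]
  rw [transferAlong_eq_sum_reps f' hf' t hinj hsurj _ s σ kk hkk']
  show _ = transferAlong f x (Additive.ofMul (cS h i₀ jS hS s))
  have hκc : ∀ s : S', κ (cS h i₀ jS hS s) = κ (jS s) := kappa_cS h hκ i₀ jS hS
  have hinjG : ∀ a a' : S' ⧸ f'.range,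
      cS h i₀ jS hS (t a) * (cS h i₀ jS hS (t a'))⁻¹ ∈ f.range → a = a' := by
    intro a a' haa
    apply hinj
    rw [hK', map_mul, map_inv, map_mul, map_inv, ← hκc, ← hκc, ← map_inv, ← map_mul]
    exact (hr _).1 haa
  have hsurjG : ∀ g : G, ∃ a : S' ⧸ f'.range, g * (cS h i₀ jS hS (t a))⁻¹ ∈ f.range := by
    intro g
    obtain ⟨k, hk⟩ := htr (h.act i₀ g)
    have h1 : h.act i₀ (g * (f k)⁻¹) = i₀ := by
      rw [h.act_mul]
      exact act_inv_of_act h i₀ hk
    obtain ⟨s₀, hs₀⟩ := (hS _).2 h1
    obtain ⟨a, ha⟩ := hsurj s₀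
    refine ⟨a, ?_⟩
    have h2 : κ (jS (s₀ * (t a)⁻¹)) = 1 := (hK' _).1 ha
    have h3 : κ (f k) = 1 := (hr _).1 ⟨k, rfl⟩
    rw [hr, map_mul, map_inv, hκc]
    rw [map_mul jS, map_inv jS, hs₀, map_mul κ, map_inv κ, map_mul κ, map_inv κ, h3, inv_one,
      mul_one] at h2
    exact h2
  have hkG : ∀ j, cS h i₀ jS hS (t j) * cS h i₀ jS hS s =
      f (c (kk j)) * cS h i₀ jS hS (t (σ j)) := by
    intro j
    rw [← map_mul, hkk' j, map_mul, hc, f_cK]
    rfl
  rw [transferAlong_eq_sum_reps f hf (fun j => cS h i₀ jS hS (t j)) hinjG hsurjG x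
    (cS h i₀ jS hS s) σ (fun j => c (kk j)) hkG]
  rfl

/-! ### The transfer `cor^K_{K'}` maps the augmentation subgroup to the augmentation subgroup -/

include hS in
theorem transferAlong_uK_mem_augOf {ψ : Additive K' →+ A} (hψ : ψ ∈ augOf f' A) :
    transferAlong (uK f hf hr jS f' hK') ψ ∈ augOf f A := by
  unfold augOf at hψ
  induction hψ using AddSubgroup.closure_induction with
  | mem w hw =>
    obtain ⟨s, cs, y, hcs, rfl⟩ := hw
    rw [transferAlong_sub]
    refine AddSubgroup.subset_closure ⟨jS s, conjHom f hf hr (jS s),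
      transferAlong (uK f hf hr jS f' hK') y, f_conjHom f hf hr (jS s), ?_⟩
    congr 1
    refine AddMonoidHom.ext fun k' => ?_
    obtain ⟨k, rfl⟩ : ∃ k : K, Additive.ofMul k = k' := ⟨Additive.toMul k', rfl⟩
    have key := transferAlong_natural (uK f hf hr jS f' hK') cs (conjEquiv f hf hr (jS s))
      (fun k' => by
        apply hf
        rw [f_conjEquiv, f_uK, f_uK, hcs, map_mul, map_mul, map_inv])
      (fun g hg => by
        rw [mem_range_uK h f hf hr i₀ jS hS f' hK'] at hg ⊢
        rw [f_conjEquiv, h.act_mul, h.act_mul,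
          act_inv_of_act h i₀ (act_jS h i₀ jS hS s)] at hg
        have h2 : h.act (h.act (h.act i₀ (f g)) (jS s)) (jS s)⁻¹ = h.act i₀ (jS s)⁻¹ := by
          rw [hg]
        rw [← h.act_mul, mul_inv_cancel, h.act_one,
          act_inv_of_act h i₀ (act_jS h i₀ jS hS s)] at h2
        exact h2)
      y k
    rw [key]
    rfl
  | zero => rw [transferAlong_zero]; exact AddSubgroup.zero_mem _
  | add a b _ _ ha hb => rw [transferAlong_add]; exact AddSubgroup.add_mem _ ha hb
  | neg a _ ha => rw [transferAlong_neg]; exact AddSubgroup.neg_mem _ ha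

/-! ### The theorem -/

include hκ hf hr hS hK' hjS hf' in
/-- **The Hecke operator maps the kernel of the transfer into the augmentation subgroup**,
provided this kernel is the augmentation subgroup at the level of the stabiliser of `i₀`
(and `K` acts transitively on the index set). -/
theorem transfer_mem_aug_of_transferAlong_eq_zero [Fintype I] [Finite D]
    (htr : ∀ i : I, ∃ k : K, h.act i₀ (f k) = i)
    (hKC : ∀ ψ : Additive K' →+ A, transferAlong f' ψ = 0 → ψ ∈ augOf f' A)
    (x : Additive K →+ A) (hx : transferAlong f x = 0) :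
    (restrictSystem h hκ f hf hr).transfer x ∈ augOf f A := by
  rw [restrict_transfer_eq h hκ f hf hr i₀ jS hS f' hK' hjS hf' htr x]
  apply transferAlong_uK_mem_augOf h f hf hr i₀ jS hS f' hK'
  apply hKC
  rw [transferAlong_comp_cK h hκ f hf hr i₀ jS hS f' hK' hf' htr x, hx]
  rfl

end Main

end Fermat.Agent.S59.MFree.H779
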