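import Fermat.Agent.S59.MFree.H587.HeckeKer
import Fermat.Agent.S59.MFree.H779.AuxSystem

/-!
# Row S59, block M-FREE without (Ell): `T_r` maps `ker (cor)` into `I_D · H` (helper779)

`Γ₀(M)`, `κ : Γ₀(M) →* D` trivial on `{d ≡ 1 mod M}`, `Γ' = kerSub κ`, `r ∤ M` an auxiliary prime.
Hypothesis (Ell at `r`): the elements of finite order of `Γ₀(M) ∩ Γ₀(r)` lie in `ker κ`
(NOT required for all of `Γ₀(M)`).  Then, for every class `x ∈ H(Γ', O)` (`O` a domain of
characteristic zero) with `cor κ x = 0`:  `T_r x ∈ I_D · H(Γ', O)` (`heckeKer_mem_augSub`).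

Proof: `AuxSystem.transfer_mem_aug_of_transferAlong_eq_zero` for the Hecke system of `T_r`, the
index `∞ ∈ ℙ¹(𝔽_r)` (stabiliser `Γ₀(M) ∩ Γ₀(r)`; `Γ₁(M)` acts transitively on `ℙ¹(𝔽_r)`) and
`MFree.H761.kerCor` at the level of the stabiliser.
-/

set_option autoImplicit false
set_option linter.unusedSectionVars false

namespace Fermat.Agent.S59.MFree.H779

open CongruenceSubgroup Matrix.SpecialLinearGroup
open Fermat.Agent.S41.Spec Fermat.Agent.S29.H642 Fermat.Agent.S41.H761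
open Fermat.Agent.S59.MFree.H587 Fermat.Agent.S59.MFree.H941
open P2MW.S_ModularForm_heckeT_slash_eq_self_of_mem_Gamma0.ModularForm.HeckeSlashInvariance
open scoped MatrixGroups

universe u

/-! ## The action on `ℙ¹(𝔽_r)` -/

section Action

variable {r : ℕ} [Fact r.Prime]

/-- The stabiliser of `∞` is `Γ₀(r)`. -/
theorem hPerm_infty_eq_iff (g : SL(2, ℤ)) :
    hPerm r g (OnePoint.infty : OnePoint (ZMod r)) = OnePoint.infty ↔ g ∈ Gamma0 r := by
  rw [hPerm_apply, OnePoint.smul_infty_eq_self_iff, redMatrix_apply_one_zero, Gamma0_mem]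

/-- The matrix `[[1, t], [M, M t + 1]]`. -/
def auxMat (M : ℕ) (t : ℤ) : SL(2, ℤ) :=
  ⟨!![1, t; (M : ℤ), (M : ℤ) * t + 1], by rw [Matrix.det_fin_two_of]; ring⟩

theorem auxMat_mem_Gamma0 (M : ℕ) (t : ℤ) : auxMat M t ∈ Gamma0 M := by
  rw [Gamma0_mem]
  show (((M : ℤ) : ℤ) : ZMod M) = 0
  simp

theorem auxMat_entry (M : ℕ) (t : ℤ) : ((((auxMat M t) 1 1 : ℤ)) : ZMod M) = 1 := by
  show ((((M : ℤ) * t + 1 : ℤ)) : ZMod M) = 1
  push_cast
  simp

theorem hPerm_auxMat {M : ℕ} (hr : ¬ r ∣ M) (j : ZMod r) :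
    hPerm r (auxMat M (((j - (M : ZMod r)⁻¹).val : ℕ) : ℤ)) (OnePoint.infty : OnePoint (ZMod r)) =
      (j : OnePoint (ZMod r)) := by
  have hM : (M : ZMod r) ≠ 0 := by
    intro h0
    exact hr ((ZMod.natCast_eq_zero_iff M r).mp h0)
  rw [hPerm_apply, OnePoint.smul_infty_eq_ite, redMatrix_apply_one_zero, redMatrix_apply_zero_zero]
  have h10 : ((((auxMat M (((j - (M : ZMod r)⁻¹).val : ℕ) : ℤ)) 1 0 : ℤ)) : ZMod r) = (M : ZMod r) := by
    show ((((M : ℤ) : ℤ)) : ZMod r) = _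
    push_cast
    rfl
  have h11 : ((((auxMat M (((j - (M : ZMod r)⁻¹).val : ℕ) : ℤ)) 1 1 : ℤ)) : ZMod r) =
      (M : ZMod r) * (j - (M : ZMod r)⁻¹) + 1 := by
    show ((((M : ℤ) * (((j - (M : ZMod r)⁻¹).val : ℕ) : ℤ) + 1 : ℤ)) : ZMod r) = _
    push_cast
    rw [ZMod.natCast_zmod_val]
  rw [h10, h11, if_neg hM]
  congr 1
  field_simp
  ring

end Action

/-! ## The theorem -/

section Main

variable {M r : ℕ} [Fact r.Prime] {D : Type} [Group D]
variable (hr : ¬ r ∣ M) (κ : Gamma0 M →* D)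
variable (hΓ1 : ∀ γ : Gamma0 M, ((((γ : SL(2, ℤ)) 1 1 : ℤ)) : ZMod M) = 1 → κ γ = 1)

include hr hΓ1 in
/-- `Γ₁(M)`, hence `ker κ`, acts transitively on `ℙ¹(𝔽_r)`. -/
theorem exists_ker_hPerm (x : OnePoint (ZMod r)) :
    ∃ k : kerSub κ, hPerm r (k : SL(2, ℤ)) (OnePoint.infty : OnePoint (ZMod r)) = x := by
  induction x using OnePoint.rec with
  | infty =>
    refine ⟨1, ?_⟩
    rw [hPerm_infty_eq_iff]
    exact Subgroup.one_mem _
  | coe j =>
    refine ⟨⟨auxMat M (((j - (M : ZMod r)⁻¹).val : ℕ) : ℤ), mem_kerSub.mpr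
      ⟨auxMat_mem_Gamma0 M _, hΓ1 _ (auxMat_entry M _)⟩⟩, ?_⟩
    exact hPerm_auxMat hr j

/-- The stabiliser of `∞` in `Γ₀(M)`. -/
abbrev stab (M r : ℕ) : Subgroup SL(2, ℤ) := Gamma0 M ⊓ Gamma0 r

/-- The inclusion of the stabiliser. -/
def jStab (M r : ℕ) : stab M r →* Gamma0 M := Subgroup.inclusion inf_le_left

theorem jStab_injective (M r : ℕ) : Function.Injective (jStab M r) :=
  Subgroup.inclusion_injective _

theorem jStab_coe (s : stab M r) : ((jStab M r s : Gamma0 M) : SL(2, ℤ)) = (s : SL(2, ℤ)) := rfl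

theorem mem_range_jStab (g : Gamma0 M) :
    g ∈ (jStab M r).range ↔ (g : SL(2, ℤ)) ∈ Gamma0 r := by
  constructor
  · rintro ⟨s, rfl⟩
    exact s.2.2
  · intro hg
    exact ⟨⟨(g : SL(2, ℤ)), ⟨g.2, hg⟩⟩, rfl⟩

/-- The Hecke system of `T_r` on `Γ₀(M)`, normalised. -/
theorem auxSystem : IsCosetSystem (ιN M) (ιN M) (fun x => ιN M (wStd hr x) * heckeRep r x) :=
  twistSystem (heckeSystem hr) (wStd hr)

theorem auxSystem_act (x : OnePoint (ZMod r)) (g : Gamma0 M) :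
    (auxSystem hr).act x g = hPerm r (g : SL(2, ℤ)) x :=
  (twistSystem_act (heckeSystem hr) (wStd hr) x g).trans (heckeSystem_act hr x g)

variable [NeZero M] [Finite D]

include hΓ1 in
/-- **`T_r` maps the kernel of `cor` into `I_D · H(Γ', O)`**, if the elements of finite order of
`Γ₀(M) ∩ Γ₀(r)` lie in `ker κ`. -/
theorem heckeKer_mem_augSub
    (hellr : ∀ g : Gamma0 M, (g : SL(2, ℤ)) ∈ Gamma0 r → IsOfFinOrder g → κ g = 1)
    (O : Type u) [CommRing O] [IsDomain O] [CharZero O]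
    (x : Additive (kerSub κ) →+ O) (hx : cor κ x = 0) :
    heckeKer hr κ hΓ1 x ∈ augSub κ O := by
  classical
  have hrne : NeZero r := ⟨(Fact.out : r.Prime).ne_zero⟩
  -- the data
  set h := auxSystem (M := M) hr with hh
  have hκ : PreservesKappa h κ :=
    preservesKappa_twist hr κ hΓ1 (wStd hr) (r : ZMod M) (isNormalising_wStd hr)
  set f := Subgroup.inclusion (kerSub_le κ) with hf
  have hfinj : Function.Injective f := Subgroup.inclusion_injective _
  have hrange : ∀ g : Gamma0 M, g ∈ f.range ↔ κ g = 1 := mem_range_inclusion_iff κ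
  set κ' : stab M r →* D := κ.comp (jStab M r) with hκ'
  set f' := Subgroup.inclusion (kerSub_le κ') with hf'
  have hf'inj : Function.Injective f' := Subgroup.inclusion_injective _
  have hK' : ∀ s : stab M r, s ∈ f'.range ↔ κ (jStab M r s) = 1 := mem_range_inclusion_iff κ'
  have hS : ∀ g : Gamma0 M, g ∈ (jStab M r).range ↔ h.act OnePoint.infty g = OnePoint.infty := by
    intro g
    rw [mem_range_jStab, hh, auxSystem_act, hPerm_infty_eq_iff]
  have htr : ∀ i : OnePoint (ZMod r), ∃ k : kerSub κ, h.act OnePoint.infty (f k) = i := by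
    intro i
    obtain ⟨k, hk⟩ := exists_ker_hPerm hr κ hΓ1 i
    refine ⟨k, ?_⟩
    rw [hh, auxSystem_act]
    exact hk
  -- KerCor at the level of the stabiliser
  have hnegM : (-1 : SL(2, ℤ)) ∈ Gamma0 M := by
    rw [Gamma0_mem]
    simp
  have hnegr : (-1 : SL(2, ℤ)) ∈ Gamma0 r := by
    rw [Gamma0_mem]
    simp
  have hneg1 : (-1 : SL(2, ℤ)) ∈ stab M r := Subgroup.mem_inf.mpr ⟨hnegM, hnegr⟩
  have hfin1 : IsOfFinOrder (⟨-1, hnegM⟩ : Gamma0 M) := by
    refine isOfFinOrder_iff_pow_eq_one.2 ⟨2, by norm_num, ?_⟩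
    apply Subtype.ext
    simp
  have hneg : (-1 : SL(2, ℤ)) ∈ kerSub κ' :=
    mem_kerSub.mpr ⟨hneg1, hellr ⟨-1, hnegM⟩ hnegr hfin1⟩
  have hell' : ∀ s : stab M r, IsOfFinOrder s → κ' s = 1 := by
    intro s hs
    refine hellr (jStab M r s) s.2.2 ?_
    obtain ⟨n, hn, hsn⟩ := isOfFinOrder_iff_pow_eq_one.mp hs
    refine isOfFinOrder_iff_pow_eq_one.2 ⟨n, hn, ?_⟩
    rw [← map_pow, hsn, map_one]
  have hKC : ∀ ψ : Additive (kerSub κ') →+ O, transferAlong f' ψ = 0 → ψ ∈ augOf f' O := by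
    intro ψ hψ
    have h1 := H761.kerCor.{u} (stab M r) D κ' hneg hell' O ψ
      (H761.isTorsionTrivial_of_charZero ψ) hψ
    unfold augSub at h1
    refine (AddSubgroup.closure_mono ?_) h1
    rintro w ⟨g, y, -, rfl⟩
    exact ⟨g, conjKer κ' g, y, fun k => rfl, rfl⟩
  have key := transfer_mem_aug_of_transferAlong_eq_zero h hκ f hfinj hrange OnePoint.infty
    (jStab M r) hS f' hK' (jStab_injective M r) hf'inj htr hKC x hx
  -- back to `augSub`
  have h2 : augOf f O ≤ augSub κ O := by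
    unfold augOf augSub
    rw [AddSubgroup.closure_le]
    rintro w ⟨g, c, y, hc, rfl⟩
    refine AddSubgroup.subset_closure ⟨g, y, H761.isTorsionTrivial_of_charZero y, ?_⟩
    have hcc : c = conjKer κ g := by
      refine MonoidHom.ext fun k => hfinj ?_
      rw [hc]
      rfl
    rw [hcc]
    rfl
  exact h2 key

end Main

end Fermat.Agent.S59.MFree.H779
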