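import Fermat.Agent.S41.H952.TorsCore

/-!
# S59 / M-FREE, case (B) (helper779): the hypothesis (Ell) at an auxiliary level `r ≡ 2 mod 3`

For `p = 3` the hypothesis (Ell) of `MFree.free` (elements of finite order of `Γ₀(M)` lie in
`ker κ`) can fail: `Γ₀(M)` may contain elements of order `3`.  At an auxiliary level it holds:

* `not_dvd_sq_add_self_add_one_h779`: a prime `r ≡ 2 mod 3` divides no `d² + d + 1`;
* `tr2_of_finOrder_gamma0_h779`: an element of finite order of `Γ₀(r)`, `r ≡ 2 mod 3` prime, has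
  trace `2`, `-2` or `0`, hence `g ^ 4 = 1` (`pow_four_eq_one_of_gamma0_h779`);
* `ellAux_h779`: for a `3`-group `D`, `κ : Γ₀(M) →* D` kills every element of finite order of
  `Γ₀(M) ∩ Γ₀(r)` (this is the hypothesis `hellr` of `H779.FreeAuxStatement`).
-/

set_option autoImplicit false

namespace Fermat.Agent.S59.MFree.H779

open Matrix CongruenceSubgroup
open Fermat.Agent.S41.H952
open scoped MatrixGroups

/-- A prime `r ≡ 2 mod 3` divides no value of `X² + X + 1`. -/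
theorem not_dvd_sq_add_self_add_one_h779 (r : ℕ) [hr : Fact r.Prime] (hr3 : r % 3 = 2) (d : ℤ) :
    ¬ (r : ℤ) ∣ d ^ 2 + d + 1 := by
  intro hdvd
  have h0 : ((d ^ 2 + d + 1 : ℤ) : ZMod r) = 0 := (ZMod.intCast_zmod_eq_zero_iff_dvd _ r).2 hdvd
  push_cast at h0
  set x : ZMod r := (d : ZMod r) with hx
  have hx3 : x ^ 3 = 1 := by
    have : x ^ 3 - 1 = (x - 1) * (x ^ 2 + x + 1) := by ring
    rw [h0, mul_zero] at this
    exact sub_eq_zero.1 this
  have hx1 : x ≠ 1 := by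
    intro h1
    rw [h1] at h0
    have h3 : ((3 : ℕ) : ZMod r) = 0 := by
      rw [← h0]
      norm_num
    have hdvd3 : r ∣ 3 := (ZMod.natCast_eq_zero_iff 3 r).1 h3
    have hle : r ≤ 3 := Nat.le_of_dvd (by norm_num) hdvd3
    have h2 := hr.out.two_le
    interval_cases r
    · omega
    · omega
  have hx0 : x ≠ 0 := by
    intro h
    rw [h] at hx3
    norm_num at hx3
  have hord : orderOf x = 3 := by
    have : Fact (Nat.Prime 3) := ⟨Nat.prime_three⟩
    exact orderOf_eq_prime hx3 hx1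
  have hpow : x ^ (r - 1) = 1 := ZMod.pow_card_sub_one_eq_one hx0
  have hdvd3 : 3 ∣ r - 1 := by
    rw [← hord]
    exact orderOf_dvd_of_pow_eq_one hpow
  have h2 := hr.out.two_le
  omega

/-- An element of finite order of `Γ₀(r)`, `r ≡ 2 mod 3` prime, has trace `2`, `-2` or `0`. -/
theorem tr2_of_finOrder_gamma0_h779 (r : ℕ) [Fact r.Prime] (hr3 : r % 3 = 2) (g : SL(2, ℤ))
    (hgr : g ∈ Gamma0 r) (hg : IsOfFinOrder g) : tr2 g = 2 ∨ tr2 g = -2 ∨ tr2 g = 0 := by
  have hb := abs_tr2_le_two hg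
  rw [abs_le] at hb
  have hc : (r : ℤ) ∣ g.1 1 0 := by
    rw [Gamma0_mem] at hgr
    exact (ZMod.intCast_zmod_eq_zero_iff_dvd _ r).1 hgr
  obtain ⟨k, hk⟩ := hc
  have hcay := cayley g
  have h11 := congrFun (congrFun hcay 1) 1
  rw [Matrix.mul_apply, Fin.sum_univ_two, Matrix.sub_apply, Matrix.smul_apply,
    Matrix.one_apply_eq, smul_eq_mul] at h11
  unfold tr2 at h11
  have hcases : tr2 g = 2 ∨ tr2 g = -2 ∨ tr2 g = 0 ∨ tr2 g = 1 ∨ tr2 g = -1 := by omega
  rcases hcases with ht | ht | ht | ht | ht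
  · exact Or.inl ht
  · exact Or.inr (Or.inl ht)
  · exact Or.inr (Or.inr ht)
  · exfalso
    unfold tr2 at ht
    refine not_dvd_sq_add_self_add_one_h779 r hr3 (-(g.1 1 1)) ⟨-(k * g.1 0 1), ?_⟩
    have ha : g.1 0 0 = 1 - g.1 1 1 := by linarith
    rw [ha, hk] at h11
    linear_combination h11
  · exfalso
    unfold tr2 at ht
    refine not_dvd_sq_add_self_add_one_h779 r hr3 (g.1 1 1) ⟨-(k * g.1 0 1), ?_⟩
    have ha : g.1 0 0 = -1 - g.1 1 1 := by linarith
    rw [ha, hk] at h11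
    linear_combination h11

/-- An element of finite order of `Γ₀(r)`, `r ≡ 2 mod 3` prime, satisfies `g ^ 4 = 1`. -/
theorem pow_four_eq_one_of_gamma0_h779 (r : ℕ) [Fact r.Prime] (hr3 : r % 3 = 2) (g : SL(2, ℤ))
    (hgr : g ∈ Gamma0 r) (hg : IsOfFinOrder g) : g ^ 4 = 1 := by
  have hneg : ((-1 : SL(2, ℤ))) ^ 2 = 1 := by
    rw [pow_two]
    simp
  rcases tr2_of_finOrder_gamma0_h779 r hr3 g hgr hg with ht | ht | ht
  · rw [eq_one_of_tr2_eq_two hg ht, one_pow]
  · have h1 : -g = 1 := eq_one_of_tr2_eq_two (isOfFinOrder_neg hg) (by rw [tr2_neg, ht]; norm_num)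
    have h2 : g = -1 := by rw [← h1, neg_neg]
    rw [h2, show (4 : ℕ) = 2 * 2 from rfl, pow_mul, hneg, one_pow]
  · have h2 : g ^ 2 = -1 := by
      apply Subtype.ext
      have h := cayley g
      rw [ht, zero_smul, zero_sub] at h
      rw [pow_two, Matrix.SpecialLinearGroup.coe_mul, h]
      simp [Matrix.SpecialLinearGroup.coe_neg]
    rw [show (4 : ℕ) = 2 * 2 from rfl, pow_mul, h2, hneg]

/-- **(Ell) at the auxiliary level.**  If `D` is a `3`-group and `r ≡ 2 mod 3` is prime, every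
`κ : Γ₀(M) →* D` kills the elements of finite order of `Γ₀(M) ∩ Γ₀(r)`. -/
theorem ellAux_h779 (M r : ℕ) [Fact r.Prime] (hr3 : r % 3 = 2) (D : Type*) [Group D] [Fintype D]
    (κ : Gamma0 M →* D) (hcard : ∃ a : ℕ, Fintype.card D = 3 ^ a) (g : Gamma0 M)
    (hgr : (g : SL(2, ℤ)) ∈ Gamma0 r) (hg : IsOfFinOrder g) : κ g = 1 := by
  obtain ⟨a, ha⟩ := hcard
  have hg' : IsOfFinOrder (g : SL(2, ℤ)) := Submonoid.isOfFinOrder_coe.2 hg
  have h4 : g ^ 4 = 1 := by
    apply Subtype.ext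
    rw [Subgroup.coe_pow, Subgroup.coe_one]
    exact pow_four_eq_one_of_gamma0_h779 r hr3 _ hgr hg'
  have hk4 : κ g ^ 4 = 1 := by rw [← map_pow, h4, map_one]
  have hk3 : κ g ^ 3 ^ a = 1 := by rw [← ha]; exact pow_card_eq_one
  have hgcd : Nat.gcd 4 (3 ^ a) = 1 := Nat.Coprime.pow_right a (by norm_num)
  have := pow_gcd_eq_one.2 ⟨hk4, hk3⟩
  rwa [hgcd, pow_one] at this

end Fermat.Agent.S59.MFree.H779
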