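import Fermat.Agent.S59.MFree.H779.FreeAux3

/-!
# S59 / M-FREE (helper779): `MFree.free` for `t = T_l`, all odd `p`, without (Ell) at `p = 3`

* `pow_twelve_h779`, `ellFive_h779`: (Ell) for `5 ≤ p` (torsion of `SL(2,ℤ)` is killed by `12`);
* `freeFive_heckeKer_h779`: `H587.free_heckeKer` with (Ell) discharged, `5 ≤ p`;
* `freeAux3_heckeKer_h779`: the same conclusion at `p = 3`, given an auxiliary prime
  `r ≡ 2 mod 3`, `r ∤ M`, such that `T_r` commutes with `e` and is onto on `e H`.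
-/

set_option autoImplicit false

namespace Fermat.Agent.S59.MFree.H779

open Matrix CongruenceSubgroup Matrix.SpecialLinearGroup
open Fermat.Agent.S41.Spec Fermat.Agent.S29.H642 Fermat.Agent.S59.MFree
open Fermat.Agent.S59.MFree.H587 Fermat.Agent.S41.H952
open scoped MatrixGroups

universe u

/-- An element of finite order of `SL(2,ℤ)` satisfies `g ^ 12 = 1`. -/
theorem pow_twelve_h779 (g : SL(2, ℤ)) (hg : IsOfFinOrder g) : g ^ 12 = 1 := by
  have hb := abs_tr2_le_two hg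
  rw [abs_le] at hb
  have hcases : tr2 g = 2 ∨ tr2 g = -2 ∨ tr2 g = 0 ∨ tr2 g = 1 ∨ tr2 g = -1 := by omega
  have hneg : ((-1 : SL(2, ℤ))) ^ 2 = 1 := by
    rw [pow_two]
    simp
  have h3 : (g ^ 3).1 = g.1 * (g.1 * g.1) := by
    rw [pow_succ', pow_two, Matrix.SpecialLinearGroup.coe_mul, Matrix.SpecialLinearGroup.coe_mul]
  have hcay := cayley g
  rcases hcases with ht | ht | ht | ht | ht
  · rw [eq_one_of_tr2_eq_two hg ht, one_pow]
  · have h1 : -g = 1 := eq_one_of_tr2_eq_two (isOfFinOrder_neg hg) (by rw [tr2_neg, ht]; norm_num)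
    have h2 : g = -1 := by rw [← h1, neg_neg]
    rw [h2, show (12 : ℕ) = 2 * 6 from rfl, pow_mul, hneg, one_pow]
  · have h2 : g ^ 2 = -1 := by
      apply Subtype.ext
      rw [ht, zero_smul, zero_sub] at hcay
      rw [pow_two, Matrix.SpecialLinearGroup.coe_mul, hcay]
      simp [Matrix.SpecialLinearGroup.coe_neg]
    rw [show (12 : ℕ) = 2 * (2 * 3) from rfl, pow_mul, h2, pow_mul, hneg, one_pow]
  · have h2 : g ^ 3 = -1 := by
      apply Subtype.ext
      rw [ht, one_smul] at hcay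
      rw [h3, hcay, Matrix.mul_sub, Matrix.mul_one, hcay]
      simp [Matrix.SpecialLinearGroup.coe_neg]
    rw [show (12 : ℕ) = 3 * (2 * 2) from rfl, pow_mul, h2, pow_mul, hneg, one_pow]
  · have h2 : g ^ 3 = 1 := by
      apply Subtype.ext
      rw [ht] at hcay
      rw [h3, hcay, Matrix.mul_sub, Matrix.mul_one, Matrix.mul_smul, hcay]
      simp only [Matrix.SpecialLinearGroup.coe_one]
      module
    rw [show (12 : ℕ) = 3 * 4 from rfl, pow_mul, h2, one_pow]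

/-- **(Ell) for `5 ≤ p`.** -/
theorem ellFive_h779 {Γ : Subgroup SL(2, ℤ)} {D : Type} [Group D] [Fintype D] (κ : Γ →* D)
    {p : ℕ} (hp : p.Prime) (hp5 : 5 ≤ p) (hcard : ∃ a : ℕ, Fintype.card D = p ^ a)
    (g : Γ) (hg : IsOfFinOrder g) : κ g = 1 := by
  obtain ⟨a, ha⟩ := hcard
  have hg' : IsOfFinOrder (g : SL(2, ℤ)) := Submonoid.isOfFinOrder_coe.2 hg
  have h12 : g ^ 12 = 1 := by
    apply Subtype.ext
    rw [Subgroup.coe_pow, Subgroup.coe_one]
    exact pow_twelve_h779 _ hg'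
  have h1 : κ g ^ 12 = 1 := by rw [← map_pow, h12, map_one]
  have h2 : κ g ^ p ^ a = 1 := by rw [← ha]; exact pow_card_eq_one
  have hcop : Nat.gcd 12 (p ^ a) = 1 := by
    apply Nat.Coprime.pow_right
    have h2' : Nat.Coprime 2 p := by
      rw [Nat.coprime_primes Nat.prime_two hp]
      omega
    have h3' : Nat.Coprime 3 p := by
      rw [Nat.coprime_primes Nat.prime_three hp]
      omega
    have : (12 : ℕ) = 2 * 2 * 3 := rfl
    rw [this]
    exact Nat.Coprime.mul_left (Nat.Coprime.mul_left h2' h2') h3'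
  have := pow_gcd_eq_one.2 ⟨h1, h2⟩
  rwa [hcop, pow_one] at this

/-- **M-FREE for `T_l`, `5 ≤ p`**: `H587.free_heckeKer` with (Ell) discharged. -/
theorem freeFive_heckeKer_h779 (p M l : ℕ) [Fact p.Prime] [Fact l.Prime] (hp5 : 5 ≤ p)
    (hl : ¬ l ∣ M) (hM : M ≠ 0)
    (D : Type) [Group D] [Fintype D] (κ : Gamma0 M →* D)
    (hκ : Function.Surjective κ) (hcard : ∃ a : ℕ, Fintype.card D = p ^ a)
    (hΓ1 : ∀ γ : Gamma0 M, ((((γ : SL(2, ℤ)) 1 1 : ℤ)) : ZMod M) = 1 → κ γ = 1)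
    (O : Type u) [CommRing O] [IsDomain O] [IsDiscreteValuationRing O] [CharZero O]
    (hp : ¬ IsUnit (p : O))
    (e : (Additive (kerSub κ) →+ O) →ₗ[O] (Additive (kerSub κ) →+ O))
    (he : ∀ x, e (e x) = e x)
    (het : ∀ x, e (heckeKerLin hl κ hΓ1 O x) = heckeKerLin hl κ hΓ1 O (e x))
    (hec : ∀ (g : Gamma0 M) x, e (conjAct κ g x) = conjAct κ g (e x))
    (hsurj : ∀ y, e y = y → ∃ x, e x = x ∧ heckeKerLin hl κ hΓ1 O x - ((l : O) + 1) • x = y)
    (hinj : ∀ x, e x = x → heckeKerLin hl κ hΓ1 O x - ((l : O) + 1) • x = 0 → x = 0) :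
    FreeConclusion κ O e :=
  free_heckeKer.{u} p M l hl hM D κ hκ hcard
    (fun g hg => ellFive_h779 κ Fact.out hp5 hcard g hg) hΓ1 O hp e he het hec hsurj hinj

/-- **M-FREE for `T_l` at `p = 3`**, with an auxiliary prime `r ≡ 2 mod 3`. -/
theorem freeAux3_heckeKer_h779 (M l r : ℕ) [Fact l.Prime] [Fact r.Prime]
    (hl : ¬ l ∣ M) (hr : ¬ r ∣ M) (hr3 : r % 3 = 2) (hM : M ≠ 0)
    (D : Type) [Group D] [Fintype D] (κ : Gamma0 M →* D)
    (hκ : Function.Surjective κ) (hcard : ∃ a : ℕ, Fintype.card D = 3 ^ a)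
    (hΓ1 : ∀ γ : Gamma0 M, ((((γ : SL(2, ℤ)) 1 1 : ℤ)) : ZMod M) = 1 → κ γ = 1)
    (O : Type u) [CommRing O] [IsDomain O] [IsDiscreteValuationRing O] [CharZero O]
    (hp : ¬ IsUnit (3 : O))
    (e : (Additive (kerSub κ) →+ O) →ₗ[O] (Additive (kerSub κ) →+ O))
    (he : ∀ x, e (e x) = e x)
    (het : ∀ x, e (heckeKerLin hl κ hΓ1 O x) = heckeKerLin hl κ hΓ1 O (e x))
    (hec : ∀ (g : Gamma0 M) x, e (conjAct κ g x) = conjAct κ g (e x))
    (hsurj : ∀ y, e y = y → ∃ x, e x = x ∧ heckeKerLin hl κ hΓ1 O x - ((l : O) + 1) • x = y)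
    (hinj : ∀ x, e x = x → heckeKerLin hl κ hΓ1 O x - ((l : O) + 1) • x = 0 → x = 0)
    (her : ∀ x, e (heckeKerLin hr κ hΓ1 O x) = heckeKerLin hr κ hΓ1 O (e x))
    (hsurjr : ∀ y, e y = y → ∃ x, e x = x ∧ heckeKerLin hr κ hΓ1 O x = y) :
    FreeConclusion κ O e :=
  freeAux3.{u} M l r hl hr hr3 hM D κ hκ hcard hΓ1 O hp e (heckeKerLin hl κ hΓ1 O) he het hec
    (fun g x => heckeKerOf_conjAct hl κ hΓ1 (wStd hl) (l : ZMod M) (isNormalising_wStd hl) g x)
    (fun x => cor_heckeKerOf hl κ hΓ1 (wStd hl) (l : ZMod M) (isNormalising_wStd hl) x)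
    hsurj hinj her hsurjr

end Fermat.Agent.S59.MFree.H779
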