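import Fermat.Agent.S59.MFree.H587.HeckeKer
import Fermat.Agent.S59.MFree.H779.AuxKer

/-!
# Row S59, block M-FREE **without (Ell)**: freeness via an auxiliary prime (helper779)

`MFree.free` (`MFree/Main.lean`) needs hypothesis (Ell): every element of finite order of `Γ₀(M)`
lies in `ker κ`.  For `p = 3` this fails as soon as `Γ₀(M)` has elements of order `3` (all the
prime factors of `M` are `≡ 1 mod 3`, or `3 ∥ M`), because `D` is a `3`-group.

`freeAux` is `MFree.free` with (Ell) replaced by the existence of an auxiliary prime `r ∤ M` with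

* (Ell at `r`) every element of finite order of `Γ₀(M) ∩ Γ₀(r)` lies in `ker κ`
  (automatic for `p = 3` and `r ≡ 2 mod 3`: `EllAux.lean`);
* `T_r` commutes with the projector `e` and is onto on `e H` (true if `T_r` is not in the maximal
  ideal of `e`: by Chebotarev such an `r` exists when `ρ̄` is not induced from `ℚ(√-3)`).

Proof.  `AuxKer.heckeKer_mem_augSub`: `T_r` maps `ker (cor)` into `I_D · H`.  The operator `T_r` is
onto on `e H` and on `cor (e H)`, hence injective on the finitely generated module `cor (e H)`;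
so `ker (cor | e H) = T_r (ker (cor | e H)) ⊆ I_D · e H`: this is the control hypothesis of the
norm criterion.  The rest is the assembly of `H761.freeAbs_of_leaves` / `H587.freeOfAbs`, verbatim.
-/

set_option autoImplicit false
set_option linter.unusedSectionVars false

namespace Fermat.Agent.S59.MFree.H779

open CongruenceSubgroup Matrix.SpecialLinearGroup
open Fermat.Agent.S41.Spec Fermat.Agent.S29.H642 Fermat.Agent.S41.H761
open Fermat.Agent.S59.MFree.H587 Fermat.Agent.S59.MFree.H941 Fermat.Agent.S59.MFree.H761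
open P2MW.S_ModularForm_heckeT_slash_eq_self_of_mem_Gamma0.ModularForm.HeckeSlashInvariance
open scoped MatrixGroups

universe u

/-! ## The abstract form, with the control hypothesis -/

section Abs

/-- **M-FREE, abstract form, with the control hypothesis instead of (Ell).**
Same statement as `MFree.FreeAbsStatement`, with `(∀ g, IsOfFinOrder g → κ g = 1)` replaced by
`hctrl : ker (cor | e H) ⊆ I_D · e H`. -/
theorem freeAbs_of_ctrl (p : ℕ) [Fact p.Prime] (Γ : Subgroup SL(2, ℤ)) [Γ.FiniteIndex]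
    (D : Type) [Group D] [Fintype D] (κ : Γ →* D)
    (hκ : Function.Surjective κ) (hcard : ∃ a : ℕ, Fintype.card D = p ^ a)
    (hneg : (-1 : SL(2, ℤ)) ∈ kerSub κ)
    (O : Type u) [CommRing O] [IsDomain O] [IsDiscreteValuationRing O] [CharZero O]
    (hp : ¬ IsUnit (p : O))
    (e t : (Additive (kerSub κ) →+ O) →ₗ[O] (Additive (kerSub κ) →+ O)) (c : O)
    (he : ∀ x, e (e x) = e x) (het : ∀ x, e (t x) = t (e x))
    (hec : ∀ (g : Γ) x, e (conjAct κ g x) = conjAct κ g (e x))
    (htc : ∀ (g : Γ) x, t (conjAct κ g x) = conjAct κ g (t x))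
    (hEis : ∀ x, (∀ g : Γ, conjAct κ g x = x) →
      ∃ y : Additive Γ →+ O, cor κ (t x - c • x) = Fintype.card D • y)
    (hsurj : ∀ y, e y = y → ∃ x, e x = x ∧ t x - c • x = y)
    (hinj : ∀ x, e x = x → t x - c • x = 0 → x = 0)
    (hctrl : ∀ x, e x = x → cor κ x = 0 → x ∈ augSpan κ e) :
    FreeConclusion κ O e := by
  classical
  have hB := H761.corSurj.{u}
  have hN1 := H57.resCor.{u}
  have hN2 := H57.corRes.{u}
  have hE := H565.normCriterion.{u}
  have hfi := H761.finiteIndex_kerSub κ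
  choose s hs using hκ
  have hκsurj : Function.Surjective κ := fun d => ⟨s d, hs d⟩
  have hcardne : Fintype.card D ≠ 0 := Fintype.card_ne_zero
  -- conjugation by `g` is conjugation by `s (κ g)`
  have hcongr : ∀ (g : Γ) (x : Additive (kerSub κ) →+ O), conjAct κ (s (κ g)) x = conjAct κ g x :=
    fun g x => H57.conjAct_congr57 κ x (hs (κ g)).symm
  -- the norm
  let N : (Additive (kerSub κ) →+ O) →ₗ[O] (Additive (kerSub κ) →+ O) := ∑ d, conjL κ (s d)
  have hN : ∀ x, N x = ∑ d, conjAct κ (s d) x := by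
    intro x
    show (∑ d, conjL κ (s d)) x = _
    rw [LinearMap.sum_apply]
    rfl
  have hNres : ∀ x, res κ (cor κ x) = N x := fun x => by rw [hN]; exact hN1 Γ D κ s hs O x
  have hcor0 : cor κ (0 : Additive (kerSub κ) →+ O) = 0 := by
    have := hN2 Γ D κ hκsurj O (0 : Additive Γ →+ O)
    rw [smul_zero] at this
    exact this
  have hresinj : ∀ y : Additive Γ →+ O, res κ y = 0 → y = 0 := by
    intro y hy
    have h1 := hN2 Γ D κ hκsurj O y
    rw [hy, hcor0] at h1
    exact eq_zero_of_nsmul_eq_zero hcardne h1.symm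
  have heN : ∀ x, e (N x) = N (e x) := by
    intro x
    rw [hN, hN, map_sum]
    exact Finset.sum_congr rfl fun d _ => hec _ _
  have htN : ∀ x, t (N x) = N (t x) := by
    intro x
    rw [hN, hN, map_sum]
    exact Finset.sum_congr rfl fun d _ => htc _ _
  have hcorsurj : ∀ y : Additive Γ →+ O, ∃ x : Additive (kerSub κ) →+ O, cor κ x = y := by
    intro y
    obtain ⟨x, -, hx⟩ := hB Γ D κ hneg O y (isTorsionTrivial_of_charZero y)
    exact ⟨x, hx⟩
  refine ⟨?_, hctrl, hcorsurj⟩
  -- the module `V = e H` and the representation of `D`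
  let V : Submodule O (Additive (kerSub κ) →+ O) := LinearMap.range e
  have hVmem : ∀ x, x ∈ V ↔ e x = x := by
    intro x
    constructor
    · rintro ⟨y, rfl⟩
      exact he y
    · intro h
      exact ⟨x, h⟩
  have hVstab : ∀ (g : Γ), ∀ x ∈ V, conjL κ g x ∈ V := by
    intro g x hx
    rw [hVmem] at hx ⊢
    rw [conjL_apply, hec, hx]
  obtain ⟨hfin, hfree⟩ := finite_free_submodule (O := O) (kerSub κ) V
  let ρ : Representation O D V :=
    { toFun := fun d => (conjL κ (s d)).restrict (hVstab (s d))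
      map_one' := by
        apply LinearMap.ext
        intro x
        apply Subtype.ext
        show conjAct κ (s 1) (x : Additive (kerSub κ) →+ O) = x
        have h1 : κ (s 1) = κ (1 : Γ) := by rw [hs, map_one]
        rw [H57.conjAct_congr57 κ _ h1.symm, conjAct_one]
      map_mul' := by
        intro d d'
        apply LinearMap.ext
        intro x
        apply Subtype.ext
        show conjAct κ (s (d * d')) (x : Additive (kerSub κ) →+ O) =
          conjAct κ (s d) (conjAct κ (s d') (x : Additive (kerSub κ) →+ O))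
        have h1 : κ (s (d * d')) = κ (s d * s d') := by rw [hs, map_mul, hs, hs]
        rw [H57.conjAct_congr57 κ _ h1.symm, conjAct_mul] }
  have hρ : ∀ (d : D) (x : V), ((ρ d x : V) : Additive (kerSub κ) →+ O) = conjAct κ (s d) x :=
    fun _ _ => rfl
  have hsumρ : ∀ x : V, ((∑ d, ρ d x : V) : Additive (kerSub κ) →+ O) = N x := by
    intro x
    rw [hN]
    rw [AddSubmonoidClass.coe_finsetSum]
    rfl
  -- hypothesis (a) of the norm criterion
  have ha : ∀ x : V, (∀ d, ρ d x = x) → ∃ z, x = ∑ d, ρ d z := by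
    intro x hx
    have hxe : e (x : Additive (kerSub κ) →+ O) = x := (hVmem _).mp x.2
    have hxinv : ∀ g : Γ, conjAct κ g (x : Additive (kerSub κ) →+ O) = x := by
      intro g
      rw [← hcongr]
      exact congrArg Subtype.val (hx (κ g))
    obtain ⟨y, hy⟩ := hEis x hxinv
    set w : Additive (kerSub κ) →+ O := t x - c • (x : Additive (kerSub κ) →+ O) with hw
    have hwinv : ∀ g : Γ, conjAct κ g w = w := by
      intro g
      have : conjAct κ g w = conjL κ g w := rfl
      rw [this, hw, map_sub, map_smul, conjL_apply, conjL_apply, ← htc, hxinv]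
    have h1 : res κ (cor κ w) = Fintype.card D • w := by
      rw [hNres, hN, Finset.sum_congr rfl fun d _ => hwinv (s d), Finset.sum_const,
        Finset.card_univ]
    have h2 : Fintype.card D • (w - res κ y) = 0 := by
      rw [smul_sub, ← h1, hy, res_nsmul, sub_self]
    have h3 : w = res κ y := sub_eq_zero.mp (eq_zero_of_nsmul_eq_zero hcardne h2)
    obtain ⟨z, hz⟩ := hcorsurj y
    have h4 : w = N (e z) := by
      have h5 : e w = w := by
        rw [hw, map_sub, map_smul, het, hxe]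
      rw [← h5, h3, ← hz, hNres, heN]
    obtain ⟨z', hz'e, hz'⟩ := hsurj (e z) (he z)
    have h6 : t (x - N z') - c • ((x : Additive (kerSub κ) →+ O) - N z') = 0 := by
      have : t (N z') - c • N z' = N (e z) := by
        rw [htN, ← map_smul, ← map_sub, hz']
      rw [map_sub, smul_sub]
      have h7 : t (x : Additive (kerSub κ) →+ O) - c • (x : Additive (kerSub κ) →+ O) = N (e z) := h4
      rw [show t (x : Additive (kerSub κ) →+ O) - t (N z') -
        (c • (x : Additive (kerSub κ) →+ O) - c • N z') =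
        (t (x : Additive (kerSub κ) →+ O) - c • (x : Additive (kerSub κ) →+ O)) -
          (t (N z') - c • N z') by abel, h7, this, sub_self]
    have h8 : e ((x : Additive (kerSub κ) →+ O) - N z') = x - N z' := by
      rw [map_sub, hxe, heN, hz'e]
    have h9 := hinj _ h8 h6
    refine ⟨⟨z', (hVmem _).mpr hz'e⟩, ?_⟩
    apply Subtype.ext
    rw [hsumρ]
    exact sub_eq_zero.mp h9
  -- hypothesis (b) of the norm criterion
  have hb : ∀ x : V, ∑ d, ρ d x = 0 → x ∈ Submodule.span O {w : V | ∃ d y, w = ρ d y - y} := by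
    intro x hx
    have hxe : e (x : Additive (kerSub κ) →+ O) = x := (hVmem _).mp x.2
    have h1 : N (x : Additive (kerSub κ) →+ O) = 0 := by
      rw [← hsumρ, hx]
      rfl
    have h2 : cor κ (x : Additive (kerSub κ) →+ O) = 0 := hresinj _ (by rw [hNres, h1])
    have h3 := hctrl x hxe h2
    -- transfer to `V`
    have h4 : augSpan κ e ≤ (Submodule.span O {w : V | ∃ d y, w = ρ d y - y}).map V.subtype := by
      unfold augSpan
      rw [Submodule.span_le]
      rintro _ ⟨g, y, hy, rfl⟩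
      refine ⟨ρ (κ g) ⟨y, (hVmem _).mpr hy⟩ - ⟨y, (hVmem _).mpr hy⟩,
        Submodule.subset_span ⟨κ g, ⟨y, (hVmem _).mpr hy⟩, rfl⟩, ?_⟩
      show conjAct κ (s (κ g)) y - y = conjAct κ g y - y
      rw [hcongr]
    obtain ⟨v, hv, hvx⟩ := h4 h3
    have : v = x := Subtype.ext hvx
    rwa [this] at hv
  obtain ⟨n, b, hli, hspan⟩ := hE p O hp D hcard V ρ ha hb
  refine ⟨n, fun i => (b i : Additive (kerSub κ) →+ O), fun i => (hVmem _).mp (b i).2, ?_⟩
  intro s' hs'
  have hfam : (fun z : D × Fin n => conjAct κ (s' z.1) (b z.2 : Additive (kerSub κ) →+ O)) =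
      fun z : D × Fin n => V.subtype (ρ z.1 (b z.2)) := by
    funext z
    show _ = conjAct κ (s z.1) (b z.2 : Additive (kerSub κ) →+ O)
    exact H57.conjAct_congr57 κ _ (by rw [hs, hs'])
  rw [hfam]
  refine ⟨hli.map' V.subtype (Submodule.ker_subtype V), ?_⟩
  intro x hx
  have h1 : (⟨x, (hVmem x).mpr hx⟩ : V) ∈
      Submodule.span O (Set.range fun z : D × Fin n => ρ z.1 (b z.2)) := by
    rw [hspan]
    trivial
  have h2 := Submodule.mem_map_of_mem (f := V.subtype) h1
  rw [Submodule.map_span, ← Set.range_comp] at h2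
  exact h2

end Abs

/-! ## Linear versions of `cor` and of the Hecke transfer -/

section Lin

variable {M l : ℕ} [Fact l.Prime] {D : Type} [Group D] [Fintype D]
variable (O : Type*) [CommRing O]

/-- `cor`, `O`-linear. -/
noncomputable def corLin (κ : Gamma0 M →* D) :
    (Additive (kerSub κ) →+ O) →ₗ[O] (Additive (Gamma0 M) →+ O) where
  toFun := cor κ
  map_add' := cor_add κ
  map_smul' c x := cor_smul κ c x

@[simp] theorem corLin_apply (κ : Gamma0 M →* D) (x : Additive (kerSub κ) →+ O) :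
    corLin O κ x = cor κ x := rfl

/-- The Hecke transfer `T_l` on `Hom(Γ₀(M), O)`, `O`-linear. -/
noncomputable def heckeTransferLin (hl : ¬ l ∣ M) :
    (Additive (Gamma0 M) →+ O) →ₗ[O] (Additive (Gamma0 M) →+ O) where
  toFun := heckeTransfer hl
  map_add' a b := by
    rw [heckeTransfer_eq_transfer, heckeTransfer_eq_transfer, heckeTransfer_eq_transfer,
      IsCosetSystem.transfer_add]
  map_smul' c x := by
    have h1 : c • x = (AddMonoidHom.mulLeft c).comp x := by
      ext h
      rfl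
    have h2 : c • heckeTransfer hl x = (AddMonoidHom.mulLeft c).comp (heckeTransfer hl x) := by
      ext h
      rfl
    rw [RingHom.id_apply, h1, h2, heckeTransfer_comp]

@[simp] theorem heckeTransferLin_apply (hl : ¬ l ∣ M) (y : Additive (Gamma0 M) →+ O) :
    heckeTransferLin O hl y = heckeTransfer hl y := rfl

end Lin

/-! ## The control hypothesis from the auxiliary prime -/

section Ctrl

variable {M r : ℕ} [Fact r.Prime] {D : Type} [Group D] [Fintype D]
variable (hr : ¬ r ∣ M) (κ : Gamma0 M →* D)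
variable (hΓ1 : ∀ γ : Gamma0 M, ((((γ : SL(2, ℤ)) 1 1 : ℤ)) : ZMod M) = 1 → κ γ = 1)

/-- **Control without (Ell).**  If the elements of finite order of `Γ₀(M) ∩ Γ₀(r)` lie in
`ker κ` and `T_r` commutes with the projector `e` and is onto on `e H`, then
`ker (cor | e H) ⊆ I_D · e H`. -/
theorem ctrl_of_aux [NeZero M]
    (hellr : ∀ g : Gamma0 M, (g : SL(2, ℤ)) ∈ Gamma0 r → IsOfFinOrder g → κ g = 1)
    (O : Type u) [CommRing O] [IsDomain O] [IsPrincipalIdealRing O] [CharZero O]
    (e : (Additive (kerSub κ) →+ O) →ₗ[O] (Additive (kerSub κ) →+ O))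
    (he : ∀ x, e (e x) = e x)
    (hec : ∀ (g : Gamma0 M) x, e (conjAct κ g x) = conjAct κ g (e x))
    (her : ∀ x, e (heckeKerLin hr κ hΓ1 O x) = heckeKerLin hr κ hΓ1 O (e x))
    (hsurjr : ∀ y, e y = y → ∃ x, e x = x ∧ heckeKerLin hr κ hΓ1 O x = y) :
    ∀ x, e x = x → cor κ x = 0 → x ∈ augSpan κ e := by
  intro x hxe hxc
  have hcorT : ∀ z : Additive (kerSub κ) →+ O,
      cor κ (heckeKerLin hr κ hΓ1 O z) = heckeTransfer hr (cor κ z) := fun z =>
    cor_heckeKerOf hr κ hΓ1 (wStd hr) (r : ZMod M) (isNormalising_wStd hr) z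
  -- the module `C = cor (e H)`
  let C : Submodule O (Additive (Gamma0 M) →+ O) := (LinearMap.range e).map (corLin O κ)
  have hfinC : Module.Finite O C := (finite_free_submodule (O := O) (Gamma0 M) C).1
  have hmemC : ∀ z, e z = z → cor κ z ∈ C := fun z hz => ⟨z, ⟨z, hz⟩, rfl⟩
  have hstab : ∀ y ∈ C, heckeTransferLin O hr y ∈ C := by
    rintro _ ⟨z', ⟨z, rfl⟩, rfl⟩
    rw [heckeTransferLin_apply, corLin_apply, ← hcorT]
    exact hmemC _ (by rw [her, he])
  let TC : C →ₗ[O] C := (heckeTransferLin O hr).restrict hstab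
  have hTC : ∀ y : C, ((TC y : C) : Additive (Gamma0 M) →+ O) = heckeTransfer hr y := fun _ => rfl
  have hTCsurj : Function.Surjective TC := by
    rintro ⟨_, z', ⟨z, rfl⟩, rfl⟩
    obtain ⟨x₁, hx₁e, hx₁⟩ := hsurjr (e z) (he z)
    refine ⟨⟨cor κ x₁, hmemC x₁ hx₁e⟩, Subtype.ext ?_⟩
    rw [hTC]
    show heckeTransfer hr (cor κ x₁) = cor κ (e z)
    rw [← hcorT, hx₁]
  have hTCinj : Function.Injective TC :=
    OrzechProperty.injective_of_surjective_endomorphism TC hTCsurj
  -- `x = T_r x₁` with `cor x₁ = 0`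
  obtain ⟨x₁, hx₁e, hx₁⟩ := hsurjr x hxe
  have h0 : cor κ x₁ = 0 := by
    have h1 : TC ⟨cor κ x₁, hmemC x₁ hx₁e⟩ = TC 0 := by
      apply Subtype.ext
      rw [hTC, map_zero]
      show heckeTransfer hr (cor κ x₁) = 0
      rw [← hcorT, hx₁, hxc]
    exact congrArg Subtype.val (hTCinj h1)
  have h2 : heckeKer hr κ hΓ1 x₁ ∈ augSub κ O := heckeKer_mem_augSub hr κ hΓ1 hellr O x₁ h0
  have h3 := e_mem_augSpan κ e he hec h2
  have h4 : heckeKer hr κ hΓ1 x₁ = x := hx₁
  rwa [h4, hxe] at h3

end Ctrl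

/-! ## M-FREE with an auxiliary prime -/

/-- **M-FREE for `Γ₀(M)` with an auxiliary prime `r` instead of (Ell).**
`MFree.FreeStatement` with the hypothesis `(∀ g : Γ₀(M), IsOfFinOrder g → κ g = 1)` replaced by:
`r ∤ M` prime, the elements of finite order of `Γ₀(M) ∩ Γ₀(r)` lie in `ker κ`, and `T_r`
(`H587.heckeKerLin hr κ hΓ1 O`) commutes with `e` and is onto on `e H`. -/
def FreeAuxStatement : Prop :=
  ∀ (p M l r : ℕ) [Fact p.Prime] [Fact l.Prime] [Fact r.Prime] (hl : ¬ l ∣ M) (hr : ¬ r ∣ M),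
    M ≠ 0 →
    ∀ (D : Type) [Group D] [Fintype D] (κ : Gamma0 M →* D),
    Function.Surjective κ → (∃ a : ℕ, Fintype.card D = p ^ a) →
    (∀ g : Gamma0 M, (g : SL(2, ℤ)) ∈ Gamma0 r → IsOfFinOrder g → κ g = 1) →
    ∀ (hΓ1 : ∀ γ : Gamma0 M, ((((γ : SL(2, ℤ)) 1 1 : ℤ)) : ZMod M) = 1 → κ γ = 1)
      (O : Type u) [CommRing O] [IsDomain O] [IsDiscreteValuationRing O] [CharZero O],
      ¬ IsUnit (p : O) →
    ∀ (e t : (Additive (kerSub κ) →+ O) →ₗ[O] (Additive (kerSub κ) →+ O)),
      (∀ x, e (e x) = e x) → (∀ x, e (t x) = t (e x)) →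
      (∀ (g : Gamma0 M) x, e (conjAct κ g x) = conjAct κ g (e x)) →
      (∀ (g : Gamma0 M) x, t (conjAct κ g x) = conjAct κ g (t x)) →
      (∀ x, cor κ (t x) = heckeTransfer hl (cor κ x)) →
      (∀ y, e y = y → ∃ x, e x = x ∧ t x - ((l : O) + 1) • x = y) →
      (∀ x, e x = x → t x - ((l : O) + 1) • x = 0 → x = 0) →
      (∀ x, e (heckeKerLin hr κ hΓ1 O x) = heckeKerLin hr κ hΓ1 O (e x)) →
      (∀ y, e y = y → ∃ x, e x = x ∧ heckeKerLin hr κ hΓ1 O x = y) →
      FreeConclusion κ O e

/-- **M-FREE with an auxiliary prime**, unconditional. -/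
theorem freeAux : FreeAuxStatement.{u} := by
  intro p M l r _ _ _ hl hr hM D _ _ κ hκ hcard hellr hΓ1 O _ _ _ _ hp e t he het hec htc hcor
    hsurj hinj her hsurjr
  have hEis := H941.eisenstein.{u}
  have : NeZero M := ⟨hM⟩
  have hnegM : (-1 : SL(2, ℤ)) ∈ Gamma0 M := by
    rw [Gamma0_mem]
    simp
  have hnegr : (-1 : SL(2, ℤ)) ∈ Gamma0 r := by
    rw [Gamma0_mem]
    simp
  have hfin : IsOfFinOrder (⟨-1, hnegM⟩ : Gamma0 M) := by
    refine isOfFinOrder_iff_pow_eq_one.2 ⟨2, by norm_num, ?_⟩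
    apply Subtype.ext
    simp
  have hneg : (-1 : SL(2, ℤ)) ∈ kerSub κ := mem_kerSub.mpr ⟨hnegM, hellr _ hnegr hfin⟩
  refine freeAbs_of_ctrl p (Gamma0 M) D κ hκ hcard hneg O hp e t ((l : O) + 1) he het hec htc ?_
    hsurj hinj (ctrl_of_aux hr κ hΓ1 hellr O e he hec her hsurjr)
  intro x hx
  -- `|D| ≠ 0` in `O`
  have hD : ((Fintype.card D : ℕ) : O) ≠ 0 := by
    rw [Nat.cast_ne_zero]
    exact Fintype.card_ne_zero
  -- reduction modulo `|D|`
  let I : Ideal O := Ideal.span {((Fintype.card D : ℕ) : O)}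
  let π : O →+ O ⧸ I := (Ideal.Quotient.mk I).toAddMonoidHom
  have hπ : ∀ a : O, π a = 0 → ∃ z : O, a = ((Fintype.card D : ℕ) : O) * z := by
    intro a ha
    have h1 : a ∈ I := Ideal.Quotient.eq_zero_iff_mem.1 ha
    obtain ⟨z, hz⟩ := Ideal.mem_span_singleton'.1 h1
    exact ⟨z, by rw [← hz, mul_comm]⟩
  -- `cor x mod |D|` is trivial on `Γ₁(M)`
  have hθ : ∀ γ : Gamma0 M, ((((γ : SL(2, ℤ)) 1 1 : ℤ)) : ZMod M) = 1 →
      (π.comp (cor κ x)) (Additive.ofMul γ) = 0 := by
    intro γ hγ
    rw [AddMonoidHom.comp_apply, cor_apply_of_ker_of_invariant κ hκ x hx γ (hΓ1 γ hγ),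
      nsmul_eq_mul]
    exact Ideal.Quotient.eq_zero_iff_mem.2
      (Ideal.mul_mem_right _ _ (Ideal.subset_span rfl))
  have hE := hEis M l hl hM (O ⧸ I) (π.comp (cor κ x)) hθ
  rw [heckeTransfer_comp] at hE
  -- the defect has values in `|D| O`
  have hw : ∀ γ : Gamma0 M, ∃ z : O,
      (cor κ (t x - ((l : O) + 1) • x)) (Additive.ofMul γ) = ((Fintype.card D : ℕ) : O) * z := by
    intro γ
    apply hπ
    rw [cor_sub, cor_smul, hcor, AddMonoidHom.sub_apply, map_sub]
    have h1 := congrArg (fun φ => φ (Additive.ofMul γ)) hE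
    simp only [AddMonoidHom.comp_apply, AddMonoidHom.nsmul_apply] at h1
    rw [h1, sub_eq_zero]
    show (l + 1) • π (cor κ x (Additive.ofMul γ)) =
      π (((l : O) + 1) * cor κ x (Additive.ofMul γ))
    rw [← map_nsmul, nsmul_eq_mul, Nat.cast_add, Nat.cast_one]
  exact exists_eq_nsmul_of_forall_dvd (Fintype.card D) hD _ hw

end Fermat.Agent.S59.MFree.H779
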