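import Fermat.Agent.S59.MFree.H779.FreeAux
import Fermat.Agent.S59.MFree.H779.EllAux

/-!
# S59 / M-FREE, case (B) (helper779): `p = 3`, auxiliary prime `r ≡ 2 mod 3`

`freeAux3 : FreeAux3Statement`: the statement `MFree.FreeStatement` at `p = 3` WITHOUT the
hypothesis (Ell), given an auxiliary prime `r ∤ M`, `r ≡ 2 mod 3`, such that `T_r`
(`H587.heckeKerLin hr κ hΓ1 O`) commutes with `e` and is onto on `e H`.
-/

set_option autoImplicit false

namespace Fermat.Agent.S59.MFree.H779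

open CongruenceSubgroup Matrix.SpecialLinearGroup
open Fermat.Agent.S41.Spec Fermat.Agent.S29.H642 Fermat.Agent.S59.MFree
open Fermat.Agent.S59.MFree.H587
open scoped MatrixGroups

universe u

/-- `MFree.FreeStatement` at `p = 3` with (Ell) replaced by an auxiliary prime `r ≡ 2 mod 3`. -/
def FreeAux3Statement : Prop :=
  ∀ (M l r : ℕ) [Fact l.Prime] [Fact r.Prime] (hl : ¬ l ∣ M) (hr : ¬ r ∣ M), r % 3 = 2 →
    M ≠ 0 →
    ∀ (D : Type) [Group D] [Fintype D] (κ : Gamma0 M →* D),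
    Function.Surjective κ → (∃ a : ℕ, Fintype.card D = 3 ^ a) →
    ∀ (hΓ1 : ∀ γ : Gamma0 M, ((((γ : SL(2, ℤ)) 1 1 : ℤ)) : ZMod M) = 1 → κ γ = 1)
      (O : Type u) [CommRing O] [IsDomain O] [IsDiscreteValuationRing O] [CharZero O],
      ¬ IsUnit (3 : O) →
    ∀ (e t : (Additive (kerSub κ) →+ O) →ₗ[O] (Additive (kerSub κ) →+ O)),
      (∀ x, e (e x) = e x) → (∀ x, e (t x) = t (e x)) →
      (∀ (g : Gamma0 M) x, e (conjAct κ g x) = conjAct κ g (e x)) →
      (∀ (g : Gamma0 M) x, t (conjAct κ g x) = conjAct κ g (t x)) →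
      (∀ x, cor κ (t x) = heckeTransfer hl (cor κ x)) →
      (∀ y, e y = y → ∃ x, e x = x ∧ t x - ((l : O) + 1) • x = y) →
      (∀ x, e x = x → t x - ((l : O) + 1) • x = 0 → x = 0) →
      (∀ x, e (heckeKerLin hr κ hΓ1 O x) = heckeKerLin hr κ hΓ1 O (e x)) →
      (∀ y, e y = y → ∃ x, e x = x ∧ heckeKerLin hr κ hΓ1 O x = y) →
      FreeConclusion κ O e

/-- **M-FREE at `p = 3` with an auxiliary prime `r ≡ 2 mod 3`**, unconditional. -/
theorem freeAux3 : FreeAux3Statement.{u} := by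
  intro M l r _ _ hl hr hr3 hM D _ _ κ hκ hcard hΓ1 O _ _ _ _ hp e t he het hec htc hcor
    hsurj hinj her hsurjr
  have : Fact (Nat.Prime 3) := ⟨Nat.prime_three⟩
  refine freeAux.{u} 3 M l r hl hr hM D κ hκ hcard
    (fun g hgr hg => ellAux_h779 M r hr3 D κ hcard g hgr hg) hΓ1 O ?_ e t he het hec htc hcor
    hsurj hinj her hsurjr
  simpa using hp

end Fermat.Agent.S59.MFree.H779
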